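/-
GATE-J27 (S27) / node B0 FRONT, item (F1) (helper43, second seat of helper27).

`exists_isGen` : a finitely generated field extension `F / K` in characteristic zero whose module
of Kähler differentials has rank one has a generator in the sense of `S24/Gen` (a transcendental
`x₀` with `F / K(x₀)` finite).  Route: for a (finite) transcendence basis `x : ι → F`,

  `Ω[F⁄K] ≅ F ⊗ Ω[K(x)⁄K]`            (`F / K(x)` finite separable, hence formally étale),
  `Ω[K(x)⁄K] ≅ K(x) ⊗ Ω[K[x]⁄K]`      (localisation),
  `Ω[K[x]⁄K]` free of rank `#ι`        (`K[x] ≅ MvPolynomial ι K`),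

so `#ι = finrank F Ω[F⁄K] = 1`.  No algebraic closedness is needed.
-/
import Mathlib
import Fermat.Agent.S24.Gen
import Fermat.Prelude.Def_AlgebraicCurve_IsCurveOver

set_option autoImplicit false

noncomputable section

open scoped IntermediateField.algebraAdjoinAdjoin KaehlerDifferential

namespace Fermat.Agent.GJ27.Front43

open Fermat.Agent.S24 AlgebraicCurve

variable {K F : Type*} [Field K] [Field F] [Algebra K F]

section Rank

variable {ι : Type*} [Fintype ι] {x : ι → F}

/-- `Ω[K[x]⁄K]` has rank `#ι` over `K[x]` for algebraically independent `x`. -/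
theorem finrank_kaehler_algebraAdjoin (hx : AlgebraicIndependent K x) :
    Module.finrank (Algebra.adjoin K (Set.range x)) Ω[Algebra.adjoin K (Set.range x)⁄K] =
      Fintype.card ι := by
  classical
  let A := Algebra.adjoin K (Set.range x)
  let P := MvPolynomial ι K
  let e : P ≃ₐ[K] A := hx.aevalEquiv
  let : Algebra P A := e.toAlgHom.toRingHom.toAlgebra
  have : IsScalarTower K P A := IsScalarTower.of_algebraMap_eq fun k => (e.commutes k).symm
  let e' : P ≃ₐ[P] A := { e.toRingEquiv with commutes' := fun _ => rfl }
  have : Algebra.FormallyEtale P A := Algebra.FormallyEtale.of_equiv e'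
  have : FaithfulSMul P A :=
    (faithfulSMul_iff_algebraMap_injective P A).mpr e.injective
  have bc : IsBaseChange A (KaehlerDifferential.map K K P A) :=
    KaehlerDifferential.isBaseChange_of_formallyEtale K P A
  rw [bc.finrank_eq, Module.finrank_eq_card_basis (KaehlerDifferential.mvPolynomialBasis K ι)]

/-- `Ω[K(x)⁄K]` has rank `#ι` over `K(x)` for algebraically independent `x`. -/
theorem finrank_kaehler_adjoin (hx : AlgebraicIndependent K x) :
    Module.finrank (IntermediateField.adjoin K (Set.range x))
        Ω[IntermediateField.adjoin K (Set.range x)⁄K] = Fintype.card ι := by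
  let A := Algebra.adjoin K (Set.range x)
  let E := IntermediateField.adjoin K (Set.range x)
  have : Algebra.FormallyEtale A E := Algebra.FormallyEtale.of_isLocalization (nonZeroDivisors A)
  have bc : IsBaseChange E (KaehlerDifferential.map K K A E) :=
    KaehlerDifferential.isBaseChange_of_formallyEtale K A E
  rw [bc.finrank_eq, finrank_kaehler_algebraAdjoin hx]

/-- In characteristic zero, `Ω[F⁄K]` has rank `#ι` for a finite transcendence basis `x : ι → F`
of a finitely generated extension. -/
theorem finrank_kaehler_of_isTranscendenceBasis [CharZero K] [Algebra.EssFiniteType K F]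
    (hx : IsTranscendenceBasis K x) : Module.finrank F Ω[F⁄K] = Fintype.card ι := by
  let E := IntermediateField.adjoin K (Set.range x)
  have : Algebra.IsAlgebraic E F := hx.isAlgebraic_field
  have : Algebra.EssFiniteType E F := Algebra.EssFiniteType.of_comp K E F
  have : CharZero E := charZero_of_injective_algebraMap (algebraMap K E).injective
  have : Algebra.IsSeparable E F := Algebra.IsAlgebraic.isSeparable_of_perfectField
  have : Algebra.FormallyEtale E F := Algebra.FormallyEtale.of_isSeparable E F
  have bc : IsBaseChange F (KaehlerDifferential.map K K E F) :=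
    KaehlerDifferential.isBaseChange_of_formallyEtale K E F
  rw [bc.finrank_eq, finrank_kaehler_adjoin hx.1]

end Rank

/-- **(F1)**: a finitely generated field extension in characteristic zero with Kähler
differentials of rank one has a generator. -/
theorem exists_isGen [CharZero K] [Algebra.EssFiniteType K F]
    (h : Module.finrank F Ω[F⁄K] = 1) : ∃ x₀ : F, IsGen K x₀ := by
  classical
  obtain ⟨s, hs⟩ := exists_isTranscendenceBasis K F
  have : Finite s := finite_of_isTranscendenceBasis hs
  have : Fintype s := Fintype.ofFinite s
  have hcard : Fintype.card s = 1 := by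
    rw [← finrank_kaehler_of_isTranscendenceBasis hs, h]
  obtain ⟨x₀, hx₀⟩ := Fintype.card_eq_one_iff.mp hcard
  have hrange : Set.range ((↑) : s → F) = {(x₀ : F)} := by
    ext y
    constructor
    · rintro ⟨z, rfl⟩
      rw [hx₀ z]
      rfl
    · rintro rfl
      exact ⟨x₀, rfl⟩
  refine ⟨(x₀ : F), ?_, ?_⟩
  · have := hs.1.transcendental x₀
    simpa using this
  · have : Algebra.IsAlgebraic (IntermediateField.adjoin K (Set.range ((↑) : s → F))) F :=
      hs.isAlgebraic_field
    have : Algebra.EssFiniteType (IntermediateField.adjoin K (Set.range ((↑) : s → F))) F :=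
      Algebra.EssFiniteType.of_comp K _ F
    have hfin : Module.Finite (IntermediateField.adjoin K (Set.range ((↑) : s → F))) F :=
      Algebra.finite_of_essFiniteType_of_isAlgebraic
    rw [hrange] at hfin
    exact hfin

/-- **(F1)** in the frozen vocabulary of `S27`. -/
theorem exists_isGen_of_isCurveOver [CharZero K] [IsCurveOver K F] [Algebra.EssFiniteType K F] :
    ∃ x₀ : F, IsGen K x₀ :=
  exists_isGen IsCurveOver.finrank_kaehler

end Fermat.Agent.GJ27.Front43
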